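import Mathlib.RingTheory.Regular.ProjectiveDimension
import Mathlib.RingTheory.Regular.Free
import Mathlib.RingTheory.Regular.Flat
import Mathlib.RingTheory.FiniteLength
import Mathlib.RingTheory.LocalRing.Length
import Mathlib.RingTheory.MvPowerSeries.Equiv
import Mathlib.RingTheory.MvPowerSeries.Inverse
import Mathlib.RingTheory.PowerSeries.Inverse
import Mathlib.RingTheory.DiscreteValuationRing.Basic

/-!
# Modules finite free over a regular local ring acted on by another regular local ring
-/

set_option autoImplicit false

namespace Fermat.Agent.H03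

open RingTheory.Sequence IsLocalRing CategoryTheory

theorem shortExact_subtype_mkQ {B : Type} [CommRing B] (M : Type) [AddCommGroup M] [Module B M]
    (N : Submodule B M) :
    (ModuleCat.shortComplexOfCompEqZero N.subtype N.mkQ (by ext; simp)).ShortExact where
  exact := ModuleCat.shortComplex_exact _ (by
    intro x
    simp)
  mono_f := (ModuleCat.mono_iff_injective _).mpr (Submodule.subtype_injective N)
  epi_g := (ModuleCat.epi_iff_surjective _).mpr (Submodule.mkQ_surjective N)

/-- finite length modules have projective dimension at most that of the residue field. -/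
theorem hasProjectiveDimensionLT_of_isFiniteLength {B : Type} [CommRing B]
    (n : ℕ) (hk : ∀ (Y : Type) [AddCommGroup Y] [Module B Y] [IsSimpleModule B Y],
      HasProjectiveDimensionLT (ModuleCat.of B Y) n)
    (Y : Type) [AddCommGroup Y] [Module B Y]
    (h : IsFiniteLength B Y) : HasProjectiveDimensionLT (ModuleCat.of B Y) n := by
  induction h with
  | @of_subsingleton M _ _ _ =>
    have : Limits.IsZero (ModuleCat.of B M) := ModuleCat.isZero_of_subsingleton _
    have := this.hasProjectiveDimensionLT_zero
    exact hasProjectiveDimensionLT_of_ge _ 0 n (Nat.zero_le _)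
  | @of_simple_quotient M _ _ N _ _ ih =>
    exact (shortExact_subtype_mkQ M N).hasProjectiveDimensionLT_X₂ n ih (hk _)

/-- simple modules over a local ring whose maximal ideal is generated by a regular sequence
of length `n` have projective dimension at most `n`. -/
theorem hasProjectiveDimensionLE_of_isSimpleModule {B : Type} [CommRing B] [IsLocalRing B]
    [IsNoetherianRing B] (zs : List B) (hzs : IsWeaklyRegular B zs)
    (hzm : Ideal.ofList zs = maximalIdeal B)
    (Y : Type) [AddCommGroup Y] [Module B Y] [hY : IsSimpleModule B Y] :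
    HasProjectiveDimensionLE (ModuleCat.of B Y) zs.length := by
  obtain ⟨m, hm, ⟨e⟩⟩ := isSimpleModule_iff_quot_maximal.mp hY
  have hmm : m = Ideal.ofList zs := by rw [hzm]; exact eq_maximalIdeal hm
  subst hmm
  have hreg : IsRegular B zs := IsRegular.of_isWeaklyRegular_of_mem_maximalIdeal B (by
    intro r hr
    rw [← hzm]
    exact Ideal.subset_span hr) hzs
  have h1 := ModuleCat.projectiveDimension_quotient_eq_length.{0, 0} zs hreg
  have h2 : projectiveDimension (ModuleCat.of B Y) = zs.length := by
    rw [← h1]
    apply projectiveDimension_eq_of_iso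
    exact (e.trans (Shrink.linearEquiv.{0} B _).symm).toModuleIso
  rw [← projectiveDimension_le_iff, h2]

/-- Transfer of finite length from `A` to `B`. -/
theorem isFiniteLength_of_tower {A B Q : Type} [CommRing A] [CommRing B] [Algebra A B]
    [AddCommGroup Q] [Module A Q] [Module B Q] [IsScalarTower A B Q] (h : IsFiniteLength A Q) :
    IsFiniteLength B Q := by
  rw [isFiniteLength_iff_isNoetherian_isArtinian] at h ⊢
  exact h.imp (isNoetherian_of_tower A) (isArtinian_of_tower A)

/-- a finite module over a local ring, killed by the maximal ideal, has finite length. -/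
theorem isFiniteLength_of_maximalIdeal_smul {A Q : Type} [CommRing A] [IsLocalRing A]
    [IsNoetherianRing A] [AddCommGroup Q] [Module A Q] [Module.Finite A Q]
    (h : ∀ a ∈ maximalIdeal A, ∀ q : Q, a • q = 0) : IsFiniteLength A Q := by
  have hm : Module.IsTorsionBySet A Q (maximalIdeal A) := fun q a => h a a.2 q
  let i1 : Module (ResidueField A) Q := hm.module
  have i2 : IsScalarTower A (ResidueField A) Q := hm.isScalarTower
  have i3 : Module.Finite (ResidueField A) Q := Module.Finite.of_restrictScalars_finite A _ _
  have i5 : IsArtinian (ResidueField A) Q := inferInstance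
  rw [isFiniteLength_iff_isNoetherian_isArtinian]
  have hs : Function.Surjective (algebraMap A (ResidueField A)) := residue_surjective
  exact ⟨inferInstance, isArtinian_of_surjective_algebraMap hs⟩

/-- Main freeness criterion. -/
theorem free_of_isWeaklyRegular {B : Type} [CommRing B] [IsLocalRing B] [IsNoetherianRing B]
    (zs : List B) (hzs : IsWeaklyRegular B zs) (hzm : Ideal.ofList zs = maximalIdeal B)
    {N : Type} [AddCommGroup N] [Module B N] [Module.Finite B N] [Nontrivial N]
    (ys : List B) (hys : IsWeaklyRegular N ys) (hym : ∀ y ∈ ys, y ∈ maximalIdeal B)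
    (hlen : zs.length ≤ ys.length)
    (hfl : IsFiniteLength B (N ⧸ (Ideal.ofList ys • ⊤ : Submodule B N))) :
    Module.Free B N := by
  have h1 := ModuleCat.projectiveDimension_quotient_eq_add_length_of_isWeaklyRegular
    (ModuleCat.of B N) ys hys hym
  have h2 : projectiveDimension (ModuleCat.of B (N ⧸ (Ideal.ofList ys • ⊤ : Submodule B N))) ≤
      (zs.length : ℕ) := by
    rw [projectiveDimension_le_iff]
    exact hasProjectiveDimensionLT_of_isFiniteLength (zs.length + 1)
      (fun Y _ _ _ => hasProjectiveDimensionLE_of_isSimpleModule zs hzs hzm Y) _ hfl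
  have h3 : projectiveDimension (ModuleCat.of B N) + (ys.length : ℕ) ≤ (0 : ℕ) + (ys.length : ℕ) := by
    have h4 : projectiveDimension (ModuleCat.of B N) + (ys.length : ℕ) ≤ (zs.length : ℕ) := by
      rw [← h1]; exact h2
    refine h4.trans ?_
    rw [← Nat.cast_add, zero_add]
    exact_mod_cast hlen
  rw [ENat.WithBot.add_le_add_natCast_right_iff, projectiveDimension_le_iff,
    ← projective_iff_hasProjectiveDimensionLE_zero, ← IsProjective.iff_projective] at h3
  exact Module.free_of_flat_of_isLocalRing

theorem isFiniteLength_quot {A B N : Type} [CommRing A] [CommRing B] [IsNoetherianRing A]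
    [IsLocalRing A] [Algebra A B] [AddCommGroup N] [Module A N] [Module B N] [IsScalarTower A B N]
    [Module.Finite A N] (P : Submodule B N)
    (h : ∀ a ∈ maximalIdeal A, ∀ x : N, algebraMap A B a • x ∈ P) :
    IsFiniteLength B (N ⧸ P) := by
  have i6 : Module.Finite A (N ⧸ P) :=
    Module.Finite.of_surjective (P.mkQ.restrictScalars A) (Submodule.mkQ_surjective P)
  refine isFiniteLength_of_tower (A := A) (isFiniteLength_of_maximalIdeal_smul ?_)
  intro a ha q
  obtain ⟨x, rfl⟩ := Submodule.mkQ_surjective _ q
  have h2 : a • P.mkQ x = P.mkQ (algebraMap A B a • x) := by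
    rw [algebraMap_smul]; rfl
  rw [h2]
  exact (Submodule.Quotient.mk_eq_zero _).mpr (h a ha x)

theorem main_free {A B : Type} [CommRing A] [CommRing B] [IsNoetherianRing A] [IsNoetherianRing B]
    [IsLocalRing A] [IsLocalRing B] (φ : A →+* B)
    (hφ : ∀ a ∈ maximalIdeal A, φ a ∈ maximalIdeal B)
    (xs : List A) (hxs : IsWeaklyRegular A xs) (hxm : Ideal.ofList xs = maximalIdeal A)
    (zs : List B) (hzs : IsWeaklyRegular B zs) (hzm : Ideal.ofList zs = maximalIdeal B)
    (hlen : zs.length ≤ xs.length)
    {d : ℕ} {N : Type} [AddCommGroup N] [Module B N] [Nontrivial N]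
    (e : (Fin d → A) ≃+ N) (he : ∀ a c, e (a • c) = φ a • e c) :
    Module.Finite B N ∧ Module.Free B N := by
  let i1 : Algebra A B := φ.toAlgebra
  let i2 : Module A N := Module.compHom N φ
  have i3 : IsScalarTower A B N := ⟨fun a b x => by
    change (φ a * b) • x = φ a • b • x
    rw [mul_smul]⟩
  have he' : ∀ (a : A) (c : Fin d → A), e (a • c) = a • e c := he
  let e' : (Fin d → A) ≃ₗ[A] N := { e with map_smul' := he' }
  have i4 : Module.Finite A N := Module.Finite.equiv e'
  have i5 : Module.Finite B N := Module.Finite.of_restrictScalars_finite A B N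
  refine ⟨i5, ?_⟩
  have h1 : IsWeaklyRegular (Fin d → A) xs := by
    have := hxs.isWeaklyRegular_lTensor (M₂ := (Fin d → A))
    exact ((TensorProduct.rid A (Fin d → A)).isWeaklyRegular_congr xs).mp this
  have h2 : IsWeaklyRegular N xs := (e'.isWeaklyRegular_congr xs).mp h1
  have h3 : IsWeaklyRegular N (xs.map φ) := (isWeaklyRegular_map_algebraMap_iff B N xs).mpr h2
  refine free_of_isWeaklyRegular zs hzs hzm (xs.map φ) h3 ?_ ?_ ?_
  · intro y hy
    obtain ⟨x, hx, rfl⟩ := List.mem_map.mp hy
    refine hφ x ?_
    rw [← hxm]
    exact Ideal.subset_span hx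
  · simpa using hlen
  · refine isFiniteLength_quot (A := A) _ ?_
    intro a ha x
    refine Submodule.smul_mem_smul ?_ trivial
    rw [← Ideal.map_ofList]
    exact Ideal.mem_map_of_mem φ (hxm ▸ ha)

end Fermat.Agent.H03
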