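import Mathlib.RingTheory.Regular.RegularSequence
import Mathlib.RingTheory.MvPowerSeries.Equiv
import Mathlib.RingTheory.MvPowerSeries.Inverse
import Mathlib.RingTheory.PowerSeries.Inverse
import Mathlib.RingTheory.DiscreteValuationRing.Basic

/-!
# The standard regular sequence in a power series ring over a discrete valuation ring
-/

set_option autoImplicit false

namespace Fermat.Agent.H03

open RingTheory.Sequence IsLocalRing Pointwise

section General

variable {A : Type} [CommRing A]

theorem isWeaklyRegular_ringEquiv {B : Type} [CommRing B] (e : A ≃+* B) (rs : List A) :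
    IsWeaklyRegular A rs ↔ IsWeaklyRegular B (rs.map e) := by
  refine e.toAddEquiv.isWeaklyRegular_congr ?_
  refine List.forall₂_map_right_iff.mpr (List.forall₂_same.mpr fun r _ x => ?_)
  change e (r * x) = e r * e x
  exact map_mul e r x

/-- `constantCoeff` as a semilinear map. -/
noncomputable def constSemi : PowerSeries A →ₛₗ[(PowerSeries.constantCoeff (R := A))] A where
  toFun := PowerSeries.constantCoeff (R := A)
  map_add' := map_add _
  map_smul' a b := by simp

theorem mem_smul_top_iff (x : PowerSeries A) :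
    x ∈ ((PowerSeries.X : PowerSeries A) • (⊤ : Submodule (PowerSeries A) (PowerSeries A))) ↔
      PowerSeries.constantCoeff x = 0 := by
  rw [← PowerSeries.X_dvd_iff, Submodule.mem_smul_pointwise_iff_exists]
  constructor
  · rintro ⟨b, -, rfl⟩
    exact ⟨b, rfl⟩
  · rintro ⟨b, rfl⟩
    exact ⟨b, trivial, rfl⟩

noncomputable def quotX :
    QuotSMulTop (PowerSeries.X : PowerSeries A) (PowerSeries A) →ₛₗ[(PowerSeries.constantCoeff (R := A))] A :=
  Submodule.liftQ _ constSemi (fun x hx => (mem_smul_top_iff x).mp hx)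

theorem quotX_bijective : Function.Bijective (quotX (A := A)) := by
  constructor
  · rw [injective_iff_map_eq_zero]
    intro a ha
    obtain ⟨x, rfl⟩ := Submodule.mkQ_surjective _ a
    exact (Submodule.Quotient.mk_eq_zero _).mpr ((mem_smul_top_iff x).mpr ha)
  · intro a
    exact ⟨Submodule.Quotient.mk (PowerSeries.C a), PowerSeries.constantCoeff_C a⟩

theorem isWeaklyRegular_powerSeries (rs : List A) (h : IsWeaklyRegular A rs) :
    IsWeaklyRegular (PowerSeries A) (PowerSeries.X :: rs.map PowerSeries.C) := by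
  refine IsWeaklyRegular.cons ?_ ?_
  · intro a b hab
    exact PowerSeries.X_mul_cancel hab
  · refine ((AddEquiv.ofBijective (quotX (A := A)) quotX_bijective).isWeaklyRegular_congr ?_).mpr h
    refine List.forall₂_map_left_iff.mpr (List.forall₂_same.mpr fun r _ x => ?_)
    change quotX (PowerSeries.C r • x) = r • quotX x
    rw [LinearMap.map_smulₛₗ, PowerSeries.constantCoeff_C]

theorem ofList_powerSeries [IsLocalRing A] (rs : List A) (h : Ideal.ofList rs = maximalIdeal A) :
    Ideal.ofList (PowerSeries.X :: rs.map PowerSeries.C) = maximalIdeal (PowerSeries A) := by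
  ext f
  rw [mem_maximalIdeal, mem_nonunits_iff, PowerSeries.isUnit_iff_constantCoeff,
    ← mem_nonunits_iff, ← mem_maximalIdeal, ← h, Ideal.ofList_cons, Ideal.mem_span_singleton_sup,
    ← Ideal.map_ofList]
  constructor
  · rintro ⟨a, b, hb, rfl⟩
    have : PowerSeries.constantCoeff b ∈ Ideal.map (PowerSeries.constantCoeff (R := A))
        (Ideal.map PowerSeries.C (Ideal.ofList rs)) := Ideal.mem_map_of_mem _ hb
    rw [Ideal.map_map] at this
    have h2 : (PowerSeries.constantCoeff (R := A)).comp PowerSeries.C = RingHom.id A := by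
      ext; simp
    rw [h2, Ideal.map_id] at this
    simpa using this
  · intro hf
    have h1 : (PowerSeries.X : PowerSeries A) ∣ f - PowerSeries.C (PowerSeries.constantCoeff f) := by
      rw [PowerSeries.X_dvd_iff]; simp
    obtain ⟨g, hg⟩ := h1
    exact ⟨g, PowerSeries.C (PowerSeries.constantCoeff f), Ideal.mem_map_of_mem _ hf, by
      rw [mul_comm, ← hg]; ring⟩

end General

section Mv

variable {𝒪 : Type} [CommRing 𝒪]

/-- The standard sequence `X₀, …, X_{n-1}, ϖ`. -/
noncomputable def xs (ϖ : 𝒪) (n : ℕ) : List (MvPowerSeries (Fin n) 𝒪) :=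
  List.ofFn (fun i : Fin n => MvPowerSeries.X i) ++ [MvPowerSeries.C ϖ]

theorem xs_map_finSuccEquiv (ϖ : 𝒪) (n : ℕ) :
    (xs ϖ (n + 1)).map (MvPowerSeries.finSuccEquiv 𝒪 n).toRingEquiv =
      PowerSeries.X :: (xs ϖ n).map PowerSeries.C := by
  simp [xs, List.ofFn_succ, Function.comp_def]

theorem xs_length (ϖ : 𝒪) (n : ℕ) : (xs ϖ n).length = n + 1 := by
  simp [xs]

theorem isWeaklyRegular_xs [IsDomain 𝒪] {ϖ : 𝒪} (hϖ : ϖ ≠ 0) (n : ℕ) :
    IsWeaklyRegular (MvPowerSeries (Fin n) 𝒪) (xs ϖ n) := by
  induction n with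
  | zero =>
    rw [isWeaklyRegular_ringEquiv (MvPowerSeries.isEmptyEquiv (Fin 0) 𝒪).toRingEquiv]
    simp only [xs, List.ofFn_zero, List.nil_append, List.map_cons, List.map_nil]
    refine IsWeaklyRegular.cons ?_ (IsWeaklyRegular.nil _ _)
    have : (MvPowerSeries.isEmptyEquiv (Fin 0) 𝒪).toRingEquiv (MvPowerSeries.C ϖ) = ϖ := by simp
    rw [this]
    intro a b hab
    exact mul_left_cancel₀ hϖ hab
  | succ n ih =>
    rw [isWeaklyRegular_ringEquiv (MvPowerSeries.finSuccEquiv 𝒪 n).toRingEquiv,
      xs_map_finSuccEquiv]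
    exact isWeaklyRegular_powerSeries _ ih

theorem ofList_xs [IsDomain 𝒪] [IsDiscreteValuationRing 𝒪] {ϖ : 𝒪} (hϖ : Irreducible ϖ) (n : ℕ) :
    Ideal.ofList (xs ϖ n) = maximalIdeal (MvPowerSeries (Fin n) 𝒪) := by
  induction n with
  | zero =>
    rw [← map_ringEquiv_maximalIdeal (MvPowerSeries.isEmptyEquiv (Fin 0) 𝒪).toRingEquiv.symm,
      hϖ.maximalIdeal_eq]
    simp [xs, Ideal.map_span]
  | succ n ih =>
    have h1 := ofList_powerSeries _ ih
    rw [← xs_map_finSuccEquiv] at h1
    let e : MvPowerSeries (Fin (n + 1)) 𝒪 →+* PowerSeries (MvPowerSeries (Fin n) 𝒪) :=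
      ((MvPowerSeries.finSuccEquiv 𝒪 n).toRingEquiv : _ →+* _)
    have he : Function.Bijective e := (MvPowerSeries.finSuccEquiv 𝒪 n).toRingEquiv.bijective
    have h2 : Ideal.map e (Ideal.ofList (xs ϖ (n + 1))) = Ideal.map e (maximalIdeal _) := by
      rw [Ideal.map_ofList, map_maximalIdeal_of_surjective e he.2]
      exact h1
    have h3 := congrArg (Ideal.comap e) h2
    rwa [Ideal.comap_map_of_bijective e he, Ideal.comap_map_of_bijective e he] at h3

end Mv

end Fermat.Agent.H03
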